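/-
The addition theorem of the Weierstrass function of a lattice.
-/
import Mathlib.Analysis.SpecialFunctions.Elliptic.Weierstrass
import Mathlib.Analysis.Normed.Module.Connected
import Mathlib.Analysis.Analytic.IsolatedZeros
import Mathlib.LinearAlgebra.Complex.FiniteDimensional

set_option autoImplicit false

noncomputable section

open Complex Filter
open scoped Topology

namespace FLTAgent.EllParam

variable (L : PeriodPair)

local notation "℘" => L.weierstrassP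
local notation "℘d" => L.derivWeierstrassP
local notation "Λ" => (L.lattice : Set ℂ)

theorem countable_lattice : Set.Countable Λ := by
  have : Countable L.lattice := Countable.of_equiv _ L.latticeEquivProd.toEquiv.symm
  exact Set.countable_coe_iff.mp this

theorem isConnected_compl {B : Set ℂ} (hB : B.Countable) : IsConnected Bᶜ :=
  (hB.isPathConnected_compl_of_one_lt_rank
    (by rw [Complex.rank_real_complex]; norm_num)).isConnected

theorem tendsto_wp_zero : Tendsto ℘ (𝓝[≠] 0) (Bornology.cobounded ℂ) := by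
  rw [tendsto_cobounded_iff_meromorphicOrderAt_neg (L.meromorphic_weierstrassP 0),
    L.order_weierstrassP 0 (zero_mem _)]
  decide

theorem tendsto_norm_wp_zero : Tendsto (fun z => ‖℘ z‖) (𝓝[≠] 0) atTop :=
  tendsto_norm_cobounded_atTop.comp (tendsto_wp_zero L)

theorem hasDerivAt_wp {z : ℂ} (hz : z ∉ Λ) : HasDerivAt ℘ (℘d z) z := by
  have h := (L.differentiableOn_weierstrassP.differentiableAt
    (L.isClosed_lattice.isOpen_compl.mem_nhds hz)).hasDerivAt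
  rwa [L.deriv_weierstrassP] at h

theorem continuousAt_wp {z : ℂ} (hz : z ∉ Λ) : ContinuousAt ℘ z :=
  (hasDerivAt_wp L hz).continuousAt

/-- Zeros of an analytic function which is not identically zero on a connected set are countable. -/
theorem countable_zeros {h : ℂ → ℂ} {U : Set ℂ} (hU : IsPreconnected U)
    (hh : AnalyticOnNhd ℂ h U) (hne : ∃ z ∈ U, h z ≠ 0) :
    {z ∈ U | h z = 0}.Countable := by
  have hev := (hh.eqOn_zero_or_eventually_ne_zero_of_preconnected hU).resolve_left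
    fun e => hne.elim fun z hz => hz.2 (e hz.1)
  set S := {z ∈ U | h z = 0}
  have hdisc : DiscreteTopology S := by
    rw [discreteTopology_subtype_iff]
    intro x hx
    rw [Filter.Eventually, mem_codiscreteWithin] at hev
    have hd := hev x hx.1
    rw [disjoint_principal_right] at hd
    rw [inf_principal_eq_bot]
    filter_upwards [hd] with z hz hzS
    exact hz ⟨hzS.1, fun h' => h' hzS.2⟩
  exact Set.countable_coe_iff.mp (countable_of_Lindelof_of_discrete (X := S))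

theorem analyticOnNhd_wp_sub (w : ℂ) :
    AnalyticOnNhd ℂ (fun z => ℘ z - ℘ (w - z)) {z | z ∉ Λ ∧ w - z ∉ Λ} := fun z hz =>
  (L.analyticOnNhd_weierstrassP z hz.1).sub
    ((L.analyticOnNhd_weierstrassP (w - z) hz.2).comp_of_eq (by fun_prop) rfl)

theorem countable_shift (w : ℂ) : {z | w - z ∈ Λ}.Countable :=
  (countable_lattice L).preimage fun _ _ h => sub_right_injective h

theorem eventually_off {B : Set ℂ} (hB : B.Countable) (x : ℂ) (U : Set ℂ) (hU : U ∈ 𝓝[≠] x) :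
    ∃ z ∈ U, z ∉ B := by
  obtain ⟨V, hV, hVU⟩ := mem_nhdsWithin_iff_exists_mem_nhds_inter.mp hU
  obtain ⟨z, hz1, hz2⟩ :=
    (mem_closure_iff_nhds.mp ((hB.union (Set.countable_singleton x)).dense_compl ℝ x)) V hV
  simp only [Set.mem_compl_iff, Set.mem_union, Set.mem_singleton_iff, not_or] at hz2
  exact ⟨z, hVU ⟨hz1, hz2.2⟩, hz2.1⟩

/-- `℘ z ≠ ℘ (w - z)` outside a countable set. -/
theorem countable_eq_reflect {w : ℂ} (hw : w ∉ Λ) :
    {z | z ∈ Λ ∨ w - z ∈ Λ ∨ ℘ z = ℘ (w - z)}.Countable := by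
  have hB : (Λ ∪ {z | w - z ∈ Λ}).Countable := (countable_lattice L).union (countable_shift L w)
  have hU : {z | z ∉ Λ ∧ w - z ∉ Λ} = (Λ ∪ {z | w - z ∈ Λ})ᶜ := by
    ext z; simp
  have hc : IsPreconnected {z | z ∉ Λ ∧ w - z ∉ Λ} := by
    rw [hU]; exact (isConnected_compl hB).isPreconnected
  have hne : ∃ z ∈ {z | z ∉ Λ ∧ w - z ∉ Λ}, ℘ z - ℘ (w - z) ≠ 0 := by
    have hcont : Tendsto (fun z => ℘ (w - z)) (𝓝[≠] 0) (𝓝 (℘ w)) := by
      have : ContinuousAt (fun z => ℘ (w - z)) 0 :=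
        ContinuousAt.comp (g := ℘) (by simpa using continuousAt_wp L hw) (by fun_prop)
      simpa using this.tendsto.mono_left nhdsWithin_le_nhds
    have h1 : ∀ᶠ z in 𝓝[≠] (0 : ℂ), ‖℘ (w - z)‖ < ‖℘ w‖ + 1 :=
      hcont.norm.eventually_lt_const (lt_add_one _)
    have h2 : ∀ᶠ z in 𝓝[≠] (0 : ℂ), ‖℘ w‖ + 1 ≤ ‖℘ z‖ :=
      (tendsto_norm_wp_zero L).eventually_ge_atTop _
    obtain ⟨z, ⟨hz1, hz2⟩, hzB⟩ := eventually_off hB 0 _ (h1.and h2)
    exact ⟨z, by simpa [hU] using hzB, fun e => by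
      rw [sub_eq_zero.mp e] at hz2; linarith⟩
  refine (((countable_lattice L).union (countable_shift L w)).union
    (countable_zeros hc (analyticOnNhd_wp_sub L w) hne)).mono ?_
  intro z hz
  rcases hz with h | h | h
  · exact Or.inl (Or.inl h)
  · exact Or.inl (Or.inr h)
  · by_cases hz' : z ∈ Λ ∪ {z | w - z ∈ Λ}
    · exact Or.inl hz'
    · exact Or.inr ⟨by rw [hU]; exact hz', sub_eq_zero.mpr h⟩

theorem exists_wp_ne : ∃ z ∉ Λ, ℘d z ≠ 0 := by
  by_contra h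
  push Not at h
  have hpc := (isConnected_compl (countable_lattice L)).isPreconnected
  have hd : DifferentiableOn ℂ ℘ Λᶜ := L.differentiableOn_weierstrassP
  have hconst : ∀ {x y : ℂ}, x ∈ Λᶜ → y ∈ Λᶜ → ℘ x = ℘ y := fun hx hy =>
    L.isClosed_lattice.isOpen_compl.is_const_of_deriv_eq_zero hpc hd
      (fun z hz => by rw [L.deriv_weierstrassP]; exact h z hz) hx hy
  obtain ⟨z₀, hz₀⟩ := (isConnected_compl (countable_lattice L)).nonempty
  have h2 : ∀ᶠ z in 𝓝[≠] (0 : ℂ), ‖℘ z₀‖ + 1 ≤ ‖℘ z‖ :=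
    (tendsto_norm_wp_zero L).eventually_ge_atTop _
  obtain ⟨z, hz, hzB⟩ := eventually_off (countable_lattice L) 0 _ h2
  simp only [Set.mem_ofPred_eq] at hz
  rw [hconst hzB hz₀] at hz
  linarith

/-- `℘'' = 6 ℘² - g₂ / 2`. -/
theorem hasDerivAt_wpd {z : ℂ} (hz : z ∉ Λ) :
    HasDerivAt ℘d (6 * ℘ z ^ 2 - L.g₂ / 2) z := by
  have hda : DifferentiableAt ℂ ℘d z :=
    L.differentiableOn_derivWeierstrassP.differentiableAt
      (L.isClosed_lattice.isOpen_compl.mem_nhds hz)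
  suffices h : deriv ℘d z = 6 * ℘ z ^ 2 - L.g₂ / 2 by
    have := hda.hasDerivAt; rwa [h] at this
  have hpc := (isConnected_compl (countable_lattice L)).isPreconnected
  have han : AnalyticOnNhd ℂ (fun z => deriv ℘d z - (6 * ℘ z ^ 2 - L.g₂ / 2)) Λᶜ :=
    L.analyticOnNhd_derivWeierstrassP.deriv.sub
      (((L.analyticOnNhd_weierstrassP.pow 2).const_smul (c := (6 : ℂ))).sub analyticOnNhd_const)
  have hprod : ∀ x ∈ Λᶜ, ℘d x * (deriv ℘d x - (6 * ℘ x ^ 2 - L.g₂ / 2)) = 0 := by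
    intro x hx
    have hd : HasDerivAt ℘d (deriv ℘d x) x :=
      (L.differentiableOn_derivWeierstrassP.differentiableAt
        (L.isClosed_lattice.isOpen_compl.mem_nhds hx)).hasDerivAt
    have hp := hasDerivAt_wp L hx
    have h1 : HasDerivAt (fun t => ℘d t ^ 2) (2 * ℘d x * deriv ℘d x) x := by
      simpa [Pi.pow_def] using hd.pow 2
    have h2 : HasDerivAt (fun t => 4 * ℘ t ^ 3 - L.g₂ * ℘ t - L.g₃)
        (4 * (3 * ℘ x ^ 2 * ℘d x) - L.g₂ * ℘d x) x := by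
      simpa [Pi.pow_def, Pi.sub_def, Pi.mul_def] using (((hp.pow 3).const_mul 4).sub (hp.const_mul L.g₂)).sub_const L.g₃
    have h3 := h1.unique (h2.congr_of_eventuallyEq ?_)
    · linear_combination h3 / 2
    · filter_upwards [L.isClosed_lattice.isOpen_compl.mem_nhds hx] with t ht
      exact L.derivWeierstrassP_sq t ht
  rcases AnalyticOnNhd.eq_zero_or_eq_zero_of_mul_eq_zero L.analyticOnNhd_derivWeierstrassP han
    hprod hpc with h | h
  · obtain ⟨x, hx, hx'⟩ := exists_wp_ne L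
    exact absurd (h x hx) hx'
  · exact sub_eq_zero.mp (h z hz)

/-- The abscissa of the chord sum. -/
def chordX (a b : ℂ) : ℂ :=
  (1 / 4) * ((℘d a - ℘d b) / (℘ a - ℘ b)) ^ 2 - ℘ a - ℘ b

theorem hasDerivAt_chordX_move {w z : ℂ} (hz : z ∉ Λ) (hwz : w - z ∉ Λ)
    (hne : ℘ z - ℘ (w - z) ≠ 0) :
    HasDerivAt (fun t => chordX L t (w - t)) 0 z := by
  have hu : HasDerivAt (fun t => w - t) (-1) z := (hasDerivAt_id z).const_sub w
  have p1 := hasDerivAt_wp L hz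
  have p2 : HasDerivAt (fun t => ℘ (w - t)) (-℘d (w - z)) z := by
    simpa [Function.comp_def] using (hasDerivAt_wp L hwz).comp z hu
  have q1 := hasDerivAt_wpd L hz
  have q2 : HasDerivAt (fun t => ℘d (w - t)) (-(6 * ℘ (w - z) ^ 2 - L.g₂ / 2)) z := by
    simpa [Function.comp_def] using (hasDerivAt_wpd L hwz).comp z hu
  have e1 := L.derivWeierstrassP_sq z hz
  have e2 := L.derivWeierstrassP_sq (w - z) hwz
  have h := ((((q1.sub q2).div (p1.sub p2) hne).pow 2).const_mul (1 / 4 : ℂ)).sub p1 |>.sub p2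
  refine HasDerivAt.congr_deriv (f := fun t => chordX L t (w - t)) h ?_
  simp only [Pi.sub_apply, Pi.div_apply]
  generalize ℘ z = X at *
  generalize ℘ (w - z) = X' at *
  generalize ℘d z = Y at *
  generalize ℘d (w - z) = Y' at *
  field_simp
  grind

theorem tendsto_chordX_zero {w : ℂ} (hw : w ∉ Λ) :
    Tendsto (fun z => chordX L z (w - z)) (𝓝[≠] 0) (𝓝 (℘ w)) := by
  have hl : Tendsto ℘ (𝓝[≠] 0) (Bornology.cobounded ℂ) := tendsto_wp_zero L
  have hev0 : ∀ᶠ z in 𝓝[≠] (0 : ℂ), ℘ z ≠ 0 :=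
    hl.eventually (Bornology.eventually_ne_cobounded 0)
  have hevL : ∀ᶠ z in 𝓝[≠] (0 : ℂ), z ∉ Λ := by
    filter_upwards [self_mem_nhdsWithin, nhdsWithin_le_nhds
      (L.compl_lattice_sdiff_singleton_mem_nhds 0)] with z hz hz'
    intro h; exact hz' ⟨h, hz⟩
  have hε : Tendsto (fun z => (℘ z)⁻¹) (𝓝[≠] 0) (𝓝 0) :=
    tendsto_inv₀_cobounded.comp hl
  have hη2 : Tendsto (fun z => (℘d z / ℘ z ^ 2) ^ 2) (𝓝[≠] 0) (𝓝 0) := by
    have : Tendsto (fun z => 4 * (℘ z)⁻¹ - L.g₂ * (℘ z)⁻¹ ^ 3 - L.g₃ * (℘ z)⁻¹ ^ 4)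
        (𝓝[≠] 0) (𝓝 0) := by
      simpa using ((hε.const_mul 4).sub ((hε.pow 3).const_mul L.g₂)).sub
        ((hε.pow 4).const_mul L.g₃)
    refine this.congr' ?_
    filter_upwards [hev0, hevL] with z hz0 hzL
    rw [div_pow, L.derivWeierstrassP_sq z hzL]
    field_simp
  have hη : Tendsto (fun z => ℘d z / ℘ z ^ 2) (𝓝[≠] 0) (𝓝 0) := by
    rw [tendsto_zero_iff_norm_tendsto_zero]
    have h := (tendsto_zero_iff_norm_tendsto_zero.mp hη2).sqrt
    simpa [norm_pow, Real.sqrt_sq_eq_abs, abs_div] using h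
  have hcw : Tendsto (fun z => w - z) (𝓝[≠] 0) (𝓝 w) := by
    simpa using (tendsto_const_nhds (x := w)).sub (tendsto_nhdsWithin_of_tendsto_nhds
      (tendsto_id (x := 𝓝 (0 : ℂ))))
  have hX' : Tendsto (fun z => ℘ (w - z)) (𝓝[≠] 0) (𝓝 (℘ w)) :=
    (continuousAt_wp L hw).tendsto.comp hcw
  have hY' : Tendsto (fun z => ℘d (w - z)) (𝓝[≠] 0) (𝓝 (℘d w)) :=
    (hasDerivAt_wpd L hw).continuousAt.tendsto.comp hcw
  have hev1 : ∀ᶠ z in 𝓝[≠] (0 : ℂ), w - z ∉ Λ :=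
    hcw (L.isClosed_lattice.isOpen_compl.mem_nhds hw)
  have hev2 : ∀ᶠ z in 𝓝[≠] (0 : ℂ), ℘ z - ℘ (w - z) ≠ 0 := by
    filter_upwards [hX'.norm.eventually_lt_const (lt_add_one ‖℘ w‖),
      (tendsto_norm_wp_zero L).eventually_ge_atTop (‖℘ w‖ + 1)] with z h1 h2 e
    rw [sub_eq_zero.mp e] at h2; linarith
  have hlim : Tendsto (fun z => (4 * ℘ (w - z) * (1 + ℘ (w - z) * (℘ z)⁻¹)
      - L.g₂ * ((℘ z)⁻¹ + ℘ (w - z) * (℘ z)⁻¹ ^ 2) - 2 * L.g₃ * (℘ z)⁻¹ ^ 2
      - 2 * (℘d z / ℘ z ^ 2) * ℘d (w - z)) / (4 * (1 - ℘ (w - z) * (℘ z)⁻¹) ^ 2))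
      (𝓝[≠] 0) (𝓝 (℘ w)) := by
    have hnum : Tendsto (fun z => 4 * ℘ (w - z) * (1 + ℘ (w - z) * (℘ z)⁻¹)
      - L.g₂ * ((℘ z)⁻¹ + ℘ (w - z) * (℘ z)⁻¹ ^ 2) - 2 * L.g₃ * (℘ z)⁻¹ ^ 2
      - 2 * (℘d z / ℘ z ^ 2) * ℘d (w - z)) (𝓝[≠] 0) (𝓝 (4 * ℘ w)) := by
      simpa using ((((hX'.const_mul 4).mul ((hX'.mul hε).const_add 1)).sub
        ((hε.add (hX'.mul (hε.pow 2))).const_mul L.g₂)).sub
        ((hε.pow 2).const_mul (2 * L.g₃))).sub ((hη.const_mul 2).mul hY')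
    have hden : Tendsto (fun z => 4 * (1 - ℘ (w - z) * (℘ z)⁻¹) ^ 2) (𝓝[≠] 0) (𝓝 4) := by
      simpa using (((hX'.mul hε).const_sub 1).pow 2).const_mul 4
    simpa [Pi.div_def] using hnum.div hden (by norm_num)
  refine hlim.congr' ?_
  filter_upwards [hev0, hev1, hev2, hevL] with z hz0 hwz hne hzL
  have e1 := L.derivWeierstrassP_sq z hzL
  have e2 := L.derivWeierstrassP_sq (w - z) hwz
  simp only [chordX]
  generalize ℘ z = X at *
  generalize ℘ (w - z) = X' at *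
  generalize ℘d z = Y at *
  generalize ℘d (w - z) = Y' at *
  field_simp
  grind

/-- The addition theorem. -/
theorem wp_add {a b : ℂ} (ha : a ∉ Λ) (hb : b ∉ Λ) (hab : a + b ∉ Λ) (hne : ℘ a ≠ ℘ b) :
    chordX L a b = ℘ (a + b) := by
  set w := a + b with hw
  set B := {z | z ∈ Λ ∨ w - z ∈ Λ ∨ ℘ z = ℘ (w - z)} with hB
  have hBc : B.Countable := countable_eq_reflect L hab
  have hopen : IsOpen Bᶜ := by
    have hO : IsOpen {z | z ∉ Λ ∧ w - z ∉ Λ} :=
      L.isClosed_lattice.isOpen_compl.inter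
        (L.isClosed_lattice.isOpen_compl.preimage (continuous_sub_left w))
    have := (analyticOnNhd_wp_sub L w).continuousOn.isOpen_inter_preimage hO
      (isOpen_compl_singleton (x := (0 : ℂ)))
    convert this using 1
    ext z; simp [B, sub_eq_zero, and_assoc, not_or]
  have hU : ∀ z ∈ Bᶜ, z ∉ Λ ∧ w - z ∉ Λ ∧ ℘ z - ℘ (w - z) ≠ 0 := by
    intro z hz; simpa [B, sub_eq_zero, not_or] using hz
  have hderiv : ∀ z ∈ Bᶜ, HasDerivAt (fun t => chordX L t (w - t)) 0 z := fun z hz =>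
    hasDerivAt_chordX_move L (hU z hz).1 (hU z hz).2.1 (hU z hz).2.2
  have hconst : ∀ {x y : ℂ}, x ∈ Bᶜ → y ∈ Bᶜ → chordX L x (w - x) = chordX L y (w - y) :=
    fun hx hy => hopen.is_const_of_deriv_eq_zero (isConnected_compl hBc).isPreconnected
      (fun z hz => (hderiv z hz).differentiableAt.differentiableWithinAt)
      (fun z hz => (hderiv z hz).deriv) hx hy
  have hwa : w - a = b := by rw [hw]; ring
  have haB : a ∈ Bᶜ := by
    simpa [B, hwa, not_or] using ⟨ha, hb, hne⟩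
  have hNe : NeBot (𝓝[Bᶜ] (0 : ℂ)) :=
    mem_closure_iff_nhdsWithin_neBot.mp ((hBc.dense_compl ℝ) 0)
  have hsub : 𝓝[Bᶜ] (0 : ℂ) ≤ 𝓝[≠] 0 :=
    nhdsWithin_mono _ fun z hz => fun h0 => (hU z hz).1 (h0 ▸ zero_mem L.lattice)
  have hlim := (tendsto_chordX_zero L hab).mono_left hsub
  have hc : Tendsto (fun z => chordX L z (w - z)) (𝓝[Bᶜ] 0) (𝓝 (chordX L a b)) := by
    refine Tendsto.congr' ?_ tendsto_const_nhds
    filter_upwards [self_mem_nhdsWithin] with z hz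
    rw [← hwa]; exact hconst haB hz
  exact tendsto_nhds_unique hc hlim

/-- The addition theorem for the derivative. -/
theorem wpd_add {a b : ℂ} (ha : a ∉ Λ) (hb : b ∉ Λ) (hab : a + b ∉ Λ) (hne : ℘ a ≠ ℘ b) :
    ℘d (a + b) = -((℘d a - ℘d b) / (℘ a - ℘ b) * (℘ (a + b) - ℘ a) + ℘d a) := by
  have hO : ∀ᶠ t in 𝓝 b, t ∉ Λ ∧ a + t ∉ Λ ∧ ℘ a - ℘ t ≠ 0 := by
    have h2 : ∀ᶠ t in 𝓝 b, a + t ∉ Λ :=
      (continuous_const.add continuous_id).continuousAt (x := b)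
        (L.isClosed_lattice.isOpen_compl.mem_nhds hab)
    have h3 : ∀ᶠ t in 𝓝 b, ℘ a - ℘ t ≠ 0 :=
      ((continuousAt_const (y := ℘ a)).sub (continuousAt_wp L hb)).eventually_ne
        (sub_ne_zero.mpr hne)
    filter_upwards [L.isClosed_lattice.isOpen_compl.mem_nhds hb, h2, h3] with t h1 h2 h3
    exact ⟨h1, h2, h3⟩
  have hl : HasDerivAt (fun t => ℘ (a + t)) (℘d (a + b)) b :=
    HasDerivAt.comp_const_add a b (hasDerivAt_wp L hab)
  have p2 := hasDerivAt_wp L hb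
  have q2 := hasDerivAt_wpd L hb
  have hne' : ℘ a - ℘ b ≠ 0 := sub_ne_zero.mpr hne
  have hr := (((((q2.const_sub (℘d a))).div (p2.const_sub (℘ a)) hne').pow 2).const_mul
    (1 / 4 : ℂ)).sub_const (℘ a) |>.sub p2
  have heq : (fun t => ℘ (a + t)) =ᶠ[𝓝 b] fun t => chordX L a t := by
    filter_upwards [hO] with t ht
    exact (wp_add L ha ht.1 ht.2.1 (sub_ne_zero.mp ht.2.2)).symm
  have hu := (hl.congr_of_eventuallyEq heq.symm).unique hr
  have e1 := L.derivWeierstrassP_sq a ha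
  have e2 := L.derivWeierstrassP_sq b hb
  rw [hu, ← wp_add L ha hb hab hne]
  simp only [chordX, Pi.div_apply]
  generalize ℘ a = X at *
  generalize ℘ b = X' at *
  generalize ℘d a = Y at *
  generalize ℘d b = Y' at *
  field_simp
  grind

end FLTAgent.EllParam
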