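/-
The lattices `w • (τ ℤ + ℤ)`: scaling, change of basis, invariants in terms of Eisenstein series.
-/
import Mathlib.Analysis.SpecialFunctions.Elliptic.Weierstrass
import Mathlib.NumberTheory.ModularForms.EisensteinSeries.QExpansion
import Mathlib.NumberTheory.LSeries.HurwitzZetaValues
import Fermat.Agent.EllParam.Addition

set_option autoImplicit false

noncomputable section

open Complex UpperHalfPlane EisensteinSeries
open scoped MatrixGroups Real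

namespace FLTAgent.EllParam

/-- Multiplication by `w` as an equivalence between two lattices. -/
def scaleEquiv {L L' : PeriodPair} {w : ℂ} (hw : w ≠ 0)
    (h : ∀ l, l ∈ L.lattice ↔ w * l ∈ L'.lattice) : L.lattice ≃ L'.lattice where
  toFun l := ⟨w * l, (h l).mp l.2⟩
  invFun l := ⟨w⁻¹ * l, (h _).mpr (by rw [mul_inv_cancel_left₀ hw]; exact l.2)⟩
  left_inv l := by ext; simp [inv_mul_cancel_left₀ hw]
  right_inv l := by ext; simp [mul_inv_cancel_left₀ hw]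

theorem G_scale {L L' : PeriodPair} {w : ℂ} (hw : w ≠ 0)
    (h : ∀ l, l ∈ L.lattice ↔ w * l ∈ L'.lattice) (n : ℕ) : L'.G n = (w ^ n)⁻¹ * L.G n := by
  rw [PeriodPair.G, PeriodPair.G, ← (scaleEquiv hw h).tsum_eq, ← tsum_mul_left]
  refine tsum_congr fun l => ?_
  simp [scaleEquiv, mul_pow, mul_comm]

theorem wp_scale {L L' : PeriodPair} {w : ℂ} (hw : w ≠ 0)
    (h : ∀ l, l ∈ L.lattice ↔ w * l ∈ L'.lattice) (z : ℂ) :
    L'.weierstrassP (w * z) = (w ^ 2)⁻¹ * L.weierstrassP z := by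
  rw [PeriodPair.weierstrassP, PeriodPair.weierstrassP, ← (scaleEquiv hw h).tsum_eq,
    ← tsum_mul_left]
  refine tsum_congr fun l => ?_
  simp only [scaleEquiv, Equiv.coe_fn_mk, ← mul_sub, mul_pow, one_div, mul_inv]

theorem wpd_scale {L L' : PeriodPair} {w : ℂ} (hw : w ≠ 0)
    (h : ∀ l, l ∈ L.lattice ↔ w * l ∈ L'.lattice) (z : ℂ) :
    L'.derivWeierstrassP (w * z) = (w ^ 3)⁻¹ * L.derivWeierstrassP z := by
  rw [PeriodPair.derivWeierstrassP, PeriodPair.derivWeierstrassP,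
    ← (scaleEquiv hw h).tsum_eq, mul_neg, ← tsum_mul_left]
  congr 1
  refine tsum_congr fun l => ?_
  simp only [scaleEquiv, Equiv.coe_fn_mk, ← mul_sub, mul_pow, div_eq_mul_inv, mul_inv]
  ring

/-- The period pair `(w τ, w)`. -/
def tauPair (τ : ℍ) (w : ℂ) (hw : w ≠ 0) : PeriodPair where
  ω₁ := w * τ
  ω₂ := w
  indep := by
    rw [LinearIndependent.pair_iff]
    intro s t hst
    have h2 : (s : ℂ) * τ + t = 0 := by
      apply mul_left_cancel₀ hw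
      simp only [Complex.real_smul] at hst
      linear_combination hst
    have hs : s = 0 := by
      have := congrArg Complex.im h2
      simpa [τ.im_ne_zero] using this
    subst hs
    simpa using h2

/-- The lattice `τ ℤ + ℤ`. -/
def stdPair (τ : ℍ) : PeriodPair := tauPair τ 1 one_ne_zero

@[simp] theorem tauPair_ω₁ (τ : ℍ) (w : ℂ) (hw : w ≠ 0) : (tauPair τ w hw).ω₁ = w * τ := rfl

@[simp] theorem tauPair_ω₂ (τ : ℍ) (w : ℂ) (hw : w ≠ 0) : (tauPair τ w hw).ω₂ = w := rfl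

theorem mem_tauPair {τ : ℍ} {w : ℂ} (hw : w ≠ 0) {z : ℂ} :
    z ∈ (tauPair τ w hw).lattice ↔ ∃ m n : ℤ, w * (m * τ + n) = z := by
  rw [PeriodPair.mem_lattice]
  simp only [tauPair_ω₁, tauPair_ω₂]
  exact ⟨fun ⟨m, n, e⟩ => ⟨m, n, by rw [← e]; ring⟩, fun ⟨m, n, e⟩ => ⟨m, n, by rw [← e]; ring⟩⟩

theorem mem_stdPair {τ : ℍ} {z : ℂ} :
    z ∈ (stdPair τ).lattice ↔ ∃ m n : ℤ, (m : ℂ) * τ + n = z := by
  rw [stdPair, mem_tauPair]
  simp

theorem stdPair_scale (τ : ℍ) {w : ℂ} (hw : w ≠ 0) (l : ℂ) :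
    l ∈ (stdPair τ).lattice ↔ w * l ∈ (tauPair τ w hw).lattice := by
  rw [mem_stdPair, mem_tauPair]
  exact exists₂_congr fun m n => by rw [mul_right_inj' hw]

/-- Change of basis by `γ ∈ SL(2, ℤ)`. -/
theorem stdPair_smul (γ : SL(2, ℤ)) (τ : ℍ) (l : ℂ) :
    l ∈ (stdPair (γ • τ)).lattice ↔
      ((γ 1 0 : ℂ) * τ + γ 1 1) * l ∈ (stdPair τ).lattice := by
  have hd : (γ 1 0 : ℂ) * τ + γ 1 1 ≠ 0 := by
    have := UpperHalfPlane.denom_ne_zero (γ : GL (Fin 2) ℝ) τ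
    simpa [ModularGroup.denom_apply] using this
  have hg : ((γ • τ : ℍ) : ℂ) * ((γ 1 0 : ℂ) * τ + γ 1 1) = (γ 0 0 : ℂ) * τ + γ 0 1 := by
    rw [UpperHalfPlane.coe_specialLinearGroup_apply]
    simp only [algebraMap_int_eq, eq_intCast, Complex.ofReal_intCast]
    exact div_mul_cancel₀ _ hd
  have hdet : γ 0 0 * γ 1 1 - γ 0 1 * γ 1 0 = (1 : ℤ) := by
    have := γ.2; rwa [Matrix.det_fin_two] at this
  rw [mem_stdPair, mem_stdPair]
  constructor
  · rintro ⟨m, n, rfl⟩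
    refine ⟨m * γ 0 0 + n * γ 1 0, m * γ 0 1 + n * γ 1 1, ?_⟩
    push_cast
    linear_combination (-(m : ℂ)) * hg
  · rintro ⟨m, n, e⟩
    refine ⟨m * γ 1 1 - n * γ 1 0, n * γ 0 0 - m * γ 0 1, ?_⟩
    apply mul_left_cancel₀ hd
    rw [← e]
    have hdetC : ((γ 0 0 : ℤ) : ℂ) * γ 1 1 - γ 0 1 * γ 1 0 = 1 := by exact_mod_cast hdet
    push_cast
    linear_combination ((m : ℂ) * γ 1 1 - n * γ 1 0) * hg + ((m : ℂ) * τ + n) * hdetC

theorem wp_smul (γ : SL(2, ℤ)) (τ : ℍ) (z : ℂ) :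
    (stdPair (γ • τ)).weierstrassP z =
      ((γ 1 0 : ℂ) * τ + γ 1 1) ^ 2 *
        (stdPair τ).weierstrassP (((γ 1 0 : ℂ) * τ + γ 1 1) * z) := by
  have hd : (γ 1 0 : ℂ) * τ + γ 1 1 ≠ 0 := by
    have := UpperHalfPlane.denom_ne_zero (γ : GL (Fin 2) ℝ) τ
    simpa [ModularGroup.denom_apply] using this
  rw [wp_scale hd (stdPair_smul γ τ) z, mul_inv_cancel_left₀ (pow_ne_zero 2 hd)]

theorem stdPair_G (τ : ℍ) {k : ℕ} (hk : 3 ≤ k) :
    (stdPair τ).G k = 2 * riemannZeta k * ModularForm.E hk τ := by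
  have h := tsum_eisSummand_eq_riemannZeta_mul_eisensteinSeries hk τ
  have hE : ModularForm.E hk τ = (1 / 2 : ℂ) * eisensteinSeries (N := 1) 0 k τ := by
    rw [show ModularForm.E hk τ = (1 / 2 : ℂ) • eisensteinSeriesSIF (N := 1) 0 k τ from rfl,
      eisensteinSeriesSIF_apply]
    rfl
  rw [hE, show (2 : ℂ) * riemannZeta k * ((1 / 2 : ℂ) * eisensteinSeries (N := 1) 0 k τ)
      = riemannZeta k * eisensteinSeries (N := 1) 0 k τ by ring, ← h, PeriodPair.G]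
  let e : (Fin 2 → ℤ) ≃ (stdPair τ).lattice :=
    (finTwoArrowEquiv ℤ).trans (stdPair τ).latticeEquivProd.symm.toEquiv
  rw [← e.tsum_eq]
  refine tsum_congr fun v => ?_
  have he : ((e v : (stdPair τ).lattice) : ℂ) = (v 0 : ℂ) * τ + v 1 := by
    change (((stdPair τ).latticeEquivProd.symm (v 0, v 1) : (stdPair τ).lattice) : ℂ) = _
    rw [PeriodPair.latticeEquiv_symm_apply]
    simp [stdPair]
  rw [he, eisSummand, zpow_neg, zpow_natCast]

theorem riemannZeta_six : riemannZeta 6 = (π : ℂ) ^ 6 / 945 := by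
  have h := riemannZeta_two_mul_nat (show 3 ≠ 0 by norm_num)
  norm_num at h
  rw [h]
  have h6 : bernoulli' 6 = 1 / 42 := by
    rw [bernoulli'_def]
    norm_num [Finset.sum_range_succ, Finset.sum_range_zero, Nat.choose,
      bernoulli'_eq_zero_of_odd (show Odd 5 by decide) (by norm_num)]
  rw [bernoulli_eq_bernoulli'_of_ne_one (by norm_num), h6]
  norm_num [Nat.factorial]
  ring

theorem stdPair_g₂ (τ : ℍ) : (stdPair τ).g₂ = 4 * (π : ℂ) ^ 4 / 3 * ModularForm.E₄ τ := by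
  rw [PeriodPair.g₂, stdPair_G τ (by norm_num : 3 ≤ 4)]
  push_cast
  rw [riemannZeta_four]
  ring

theorem stdPair_g₃ (τ : ℍ) : (stdPair τ).g₃ = 8 * (π : ℂ) ^ 6 / 27 * ModularForm.E₆ τ := by
  rw [PeriodPair.g₃, stdPair_G τ (by norm_num : 3 ≤ 6)]
  push_cast
  rw [riemannZeta_six]
  ring

theorem tauPair_g₂ (τ : ℍ) {w : ℂ} (hw : w ≠ 0) :
    (tauPair τ w hw).g₂ = (w ^ 4)⁻¹ * (stdPair τ).g₂ := by
  rw [PeriodPair.g₂, PeriodPair.g₂, G_scale hw (stdPair_scale τ hw)]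
  ring

theorem tauPair_g₃ (τ : ℍ) {w : ℂ} (hw : w ≠ 0) :
    (tauPair τ w hw).g₃ = (w ^ 6)⁻¹ * (stdPair τ).g₃ := by
  rw [PeriodPair.g₃, PeriodPair.g₃, G_scale hw (stdPair_scale τ hw)]
  ring

theorem wp_tauPair (τ : ℍ) {w : ℂ} (hw : w ≠ 0) (z : ℂ) :
    (tauPair τ w hw).weierstrassP (w * z) = (w ^ 2)⁻¹ * (stdPair τ).weierstrassP z :=
  wp_scale hw (stdPair_scale τ hw) z

end FLTAgent.EllParam
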