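/-
`∑_{n : ℤ} 1/(z+n)² = (2πi)² u/(1-u)²`, `u = exp(2πiz)`, for all non-integral complex `z`.
-/
import Mathlib.NumberTheory.ModularForms.EisensteinSeries.QExpansion
import Mathlib.Analysis.Normed.Group.Tannery

set_option autoImplicit false

noncomputable section

open Complex Filter
open scoped Real Topology

namespace FLTAgent.EllParam

/-- `u/(1-u)²`. -/
def Su (u : ℂ) : ℂ := u / (1 - u) ^ 2

/-- `exp(2πiz)`. -/
def qe (z : ℂ) : ℂ := Complex.exp (2 * π * I * z)

theorem Su_inv (u : ℂ) : Su u⁻¹ = Su u := by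
  rcases eq_or_ne u 0 with rfl | hu
  · simp
  rcases eq_or_ne u 1 with rfl | hu1
  · simp
  have : 1 - u ≠ 0 := sub_ne_zero.mpr hu1.symm
  have : u - 1 ≠ 0 := sub_ne_zero.mpr hu1
  simp only [Su]
  field_simp
  ring

theorem qe_add (z w : ℂ) : qe (z + w) = qe z * qe w := by
  simp [qe, mul_add, Complex.exp_add]

theorem qe_neg (z : ℂ) : qe (-z) = (qe z)⁻¹ := by
  simp [qe, Complex.exp_neg]

theorem qe_zero : qe 0 = 1 := by simp [qe]

theorem qe_nat_mul (n : ℕ) (z : ℂ) : qe (n * z) = qe z ^ n := by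
  rw [qe, qe, ← Complex.exp_nat_mul]
  ring_nf

theorem qe_intCast (n : ℤ) : qe n = 1 := by
  rw [qe, mul_comm]
  exact Complex.exp_int_mul_two_pi_mul_I n

theorem norm_qe (z : ℂ) : ‖qe z‖ = Real.exp (-(2 * π * z.im)) := by
  simp [qe, Complex.norm_exp]

theorem qe_ne_zero (z : ℂ) : qe z ≠ 0 := Complex.exp_ne_zero _

theorem qe_eq_one_iff {z : ℂ} : qe z = 1 ↔ ∃ n : ℤ, z = n := by
  rw [qe, Complex.exp_eq_one_iff]
  refine exists_congr fun n => ?_
  rw [show (n : ℂ) * (2 * π * I) = 2 * π * I * n by ring,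
    mul_right_inj' (by simp [Real.pi_ne_zero])]

theorem continuous_qe : Continuous qe := by unfold qe; fun_prop

theorem continuousAt_Su {u : ℂ} (hu : u ≠ 1) : ContinuousAt Su u :=
  continuousAt_id.div (by fun_prop) (by simp [sub_eq_zero, hu.symm])

theorem summable_inv_sq_add (z : ℂ) : Summable fun n : ℤ => 1 / (z + n) ^ 2 := by
  have := EisensteinSeries.linear_right_summable z 1 (k := 2) le_rfl
  simpa [one_div] using this

theorem tsum_inv_sq_of_im_pos {z : ℂ} (hz : 0 < z.im) :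
    ∑' n : ℤ, 1 / (z + n) ^ 2 = (2 * π * I) ^ 2 * Su (qe z) := by
  have h := EisensteinSeries.qExpansion_identity (k := 1) le_rfl ⟨z, hz⟩
  rw [show (1 : ℕ) + 1 = 2 from rfl] at h
  rw [h, Su, qe]
  simp only [pow_one, Nat.factorial_one, Nat.cast_one, div_one]
  rw [tsum_coe_mul_geometric_of_norm_lt_one (UpperHalfPlane.norm_exp_two_pi_I_lt_one ⟨z, hz⟩)]
  ring

theorem tsum_inv_sq_neg (z : ℂ) :
    ∑' n : ℤ, 1 / (-z + n) ^ 2 = ∑' n : ℤ, 1 / (z + n) ^ 2 := by
  rw [← tsum_comp_neg]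
  refine tsum_congr fun n => ?_
  rw [Int.cast_neg, show -z + -(n : ℂ) = -(z + n) by ring, neg_sq]

theorem tsum_inv_sq_of_im_ne {z : ℂ} (hz : z.im ≠ 0) :
    ∑' n : ℤ, 1 / (z + n) ^ 2 = (2 * π * I) ^ 2 * Su (qe z) := by
  rcases hz.lt_or_gt with h | h
  · rw [← tsum_inv_sq_neg, tsum_inv_sq_of_im_pos (by simpa using h), qe_neg, Su_inv]
  · exact tsum_inv_sq_of_im_pos h

theorem tsum_inv_sq {z : ℂ} (hz : ∀ n : ℤ, z ≠ n) :
    ∑' n : ℤ, 1 / (z + n) ^ 2 = (2 * π * I) ^ 2 * Su (qe z) := by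
  by_cases him : z.im = 0
  swap; · exact tsum_inv_sq_of_im_ne him
  -- approach `z` from above
  set s : ℝ → ℂ := fun t => z + t * I
  have hs : Tendsto s (𝓝[>] 0) (𝓝 z) := by
    have : Continuous s := by fun_prop
    simpa [s] using (this.tendsto 0).mono_left nhdsWithin_le_nhds
  have hne : ∀ n : ℤ, z + n ≠ 0 := fun n e => hz (-n) (by rw [eq_neg_of_add_eq_zero_left e]; simp)
  have hL : Tendsto (fun t => ∑' n : ℤ, 1 / (s t + n) ^ 2) (𝓝[>] 0)
      (𝓝 (∑' n : ℤ, 1 / (z + n) ^ 2)) := by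
    refine tendsto_tsum_of_dominated_convergence (summable_inv_sq_add z).norm (fun n => ?_) ?_
    · exact tendsto_const_nhds.div ((hs.add_const _).pow 2) (pow_ne_zero 2 (hne n))
    · refine Eventually.of_forall fun t n => ?_
      simp only [norm_div, norm_one, norm_pow]
      gcongr
      · exact pow_pos (norm_pos_iff.mpr (hne n)) 2
      · rw [Complex.norm_def, Complex.norm_def]
        refine Real.sqrt_le_sqrt ?_
        simp [s, Complex.normSq_apply, him]
        nlinarith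
  have hR : Tendsto (fun t => (2 * π * I) ^ 2 * Su (qe (s t))) (𝓝[>] 0)
      (𝓝 ((2 * π * I) ^ 2 * Su (qe z))) :=
    ((continuousAt_Su fun e => by
      obtain ⟨n, rfl⟩ := qe_eq_one_iff.mp e
      exact hz n rfl).tendsto.comp ((continuous_qe.tendsto z).comp hs)).const_mul _
  refine tendsto_nhds_unique hL (hR.congr' ?_)
  filter_upwards [self_mem_nhdsWithin] with t ht
  exact (tsum_inv_sq_of_im_ne (by simpa [s, him] using ne_of_gt (Set.mem_Ioi.mp ht))).symm

end FLTAgent.EllParam
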