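/-
The series of `℘` for the lattice `τℤ+ℤ`, summed row by row.
-/
import Fermat.Agent.EllParam.SumInvSq
import Fermat.Agent.EllParam.Lattice

set_option autoImplicit false

noncomputable section

open Complex
open UpperHalfPlane hiding I
open scoped Real MatrixGroups

namespace FLTAgent.EllParam

/-- `(2πi)⁻² ℘(z; τℤ+ℤ)`. -/
def nP (τ : ℍ) (z : ℂ) : ℂ := (stdPair τ).weierstrassP z / (2 * π * I) ^ 2

theorem two_pi_I_sq_ne_zero : (2 * (π : ℂ) * I) ^ 2 ≠ 0 :=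
  pow_ne_zero 2 (by simp [Real.pi_ne_zero])

theorem nP_add (τ : ℍ) (z : ℂ) (m n : ℤ) : nP τ (z + (m * τ + n)) = nP τ z := by
  rw [nP, nP, ← (stdPair τ).weierstrassP_add_coe z ⟨_, mem_stdPair.mpr ⟨m, n, rfl⟩⟩]

theorem nP_neg (τ : ℍ) (z : ℂ) : nP τ (-z) = nP τ z := by
  rw [nP, nP, PeriodPair.weierstrassP_neg]

theorem nP_smul (γ : SL(2, ℤ)) (τ : ℍ) (z : ℂ) :
    nP (γ • τ) z = ((γ 1 0 : ℂ) * τ + γ 1 1) ^ 2 * nP τ (((γ 1 0 : ℂ) * τ + γ 1 1) * z) := by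
  rw [nP, nP, wp_smul]
  ring

theorem wp_eq_tsum_rows (τ : ℍ) (z : ℂ) :
    (stdPair τ).weierstrassP z =
      ∑' (m : ℤ) (n : ℤ), (1 / (z - (m * τ + n)) ^ 2 - 1 / ((m : ℂ) * τ + n) ^ 2) ∧
    Summable fun m : ℤ =>
      ∑' n : ℤ, (1 / (z - (m * τ + n)) ^ 2 - 1 / ((m : ℂ) * τ + n) ^ 2) := by
  let e : ℤ × ℤ ≃ (stdPair τ).lattice := (stdPair τ).latticeEquivProd.symm.toEquiv
  have h := e.hasSum_iff.mpr ((stdPair τ).hasSum_weierstrassP z)
  have he : ((fun l : (stdPair τ).lattice => 1 / (z - l) ^ 2 - 1 / (l : ℂ) ^ 2) ∘ e) =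
      fun x : ℤ × ℤ => 1 / (z - (x.1 * τ + x.2)) ^ 2 - 1 / ((x.1 : ℂ) * τ + x.2) ^ 2 := by
    funext x
    simp only [Function.comp_apply]
    rw [show ((e x : (stdPair τ).lattice) : ℂ) = x.1 * τ + x.2 by
      change (((stdPair τ).latticeEquivProd.symm x : (stdPair τ).lattice) : ℂ) = _
      rw [PeriodPair.latticeEquiv_symm_apply]
      simp [stdPair]]
  rw [he] at h
  exact ⟨h.tsum_eq.symm.trans h.summable.tsum_prod, h.summable.prod⟩

theorem natMul_tau_ne_int (τ : ℍ) {m : ℤ} (hm : m ≠ 0) (n : ℤ) : (m : ℂ) * τ ≠ n := by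
  intro e
  have := congrArg Complex.im e
  simp [τ.im_ne_zero, hm] at this

theorem row_eq (τ : ℍ) {z : ℂ} (hz : ∀ m n : ℤ, z ≠ m * τ + n) (m : ℤ) :
    ∑' n : ℤ, (1 / (z - (m * τ + n)) ^ 2 - 1 / ((m : ℂ) * τ + n) ^ 2) =
      (2 * π * I) ^ 2 * Su (qe ((m : ℂ) * τ - z)) -
        if m = 0 then 2 * riemannZeta 2 else (2 * π * I) ^ 2 * Su (qe ((m : ℂ) * τ)) := by
  have h1 : ∀ n : ℤ, 1 / (z - (m * τ + n)) ^ 2 = 1 / ((m * τ - z) + n) ^ 2 := fun n => by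
    congr 1; ring
  simp only [h1]
  rw [(summable_inv_sq_add _).tsum_sub (summable_inv_sq_add _),
    tsum_inv_sq fun n e => hz m (-n) (by push_cast; linear_combination -e)]
  split_ifs with hm
  · subst hm
    have := two_mul_riemannZeta_eq_tsum_int_inv_pow_of_even (k := 2) le_rfl even_two
    rw [Nat.cast_ofNat] at this
    rw [this]
    simp
  · rw [tsum_inv_sq (natMul_tau_ne_int τ hm)]

/-- The row-by-row formula for `℘`. -/
theorem nP_eq_tsum (τ : ℍ) {z : ℂ} (hz : ∀ m n : ℤ, z ≠ m * τ + n) :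
    nP τ z = 1 / 12 + Su (qe z) + ∑' m : ℕ+,
      (Su (qe τ ^ (m : ℕ) * qe z) + Su (qe τ ^ (m : ℕ) * (qe z)⁻¹) -
        2 * Su (qe τ ^ (m : ℕ))) := by
  obtain ⟨hsum, hsummable⟩ := wp_eq_tsum_rows τ z
  rw [funext (row_eq τ hz)] at hsummable
  have hinj : Function.Injective fun m : ℕ+ => ((m : ℕ) : ℤ) := fun a b e => by simpa using e
  have hinj' : Function.Injective fun m : ℕ+ => (-(m : ℕ) : ℤ) := fun a b e => by simpa using e
  have hs1 := hsummable.comp_injective hinj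
  have hs2 := hsummable.comp_injective hinj'
  simp only [Function.comp_def] at hs1 hs2
  rw [nP, hsum, tsum_congr (row_eq τ hz), tsum_int_eq_zero_add_tsum_pnat hsummable, add_assoc,
    ← hs1.tsum_add hs2, add_div, ← tsum_div_const]
  congr 1
  · rw [if_pos rfl, Int.cast_zero, zero_mul, zero_sub, qe_neg, Su_inv, riemannZeta_two, sub_div,
      mul_div_cancel_left₀ _ two_pi_I_sq_ne_zero]
    have : (π : ℂ) ≠ 0 := by exact_mod_cast Real.pi_ne_zero
    field_simp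
    rw [I_sq]
    ring
  · refine tsum_congr fun m => ?_
    simp only [neg_eq_zero, Int.natCast_eq_zero, PNat.ne_zero, if_false, Int.cast_neg,
      Int.cast_natCast]
    rw [show -((m : ℕ) : ℂ) * τ - z = -((m : ℕ) * τ + z) by ring, qe_neg, Su_inv,
      show -((m : ℕ) : ℂ) * τ = -((m : ℕ) * τ) by ring, qe_neg, Su_inv, sub_eq_add_neg
      (((m : ℕ) : ℂ) * τ) z, qe_add, qe_add, qe_neg, qe_nat_mul]
    field_simp [two_pi_I_sq_ne_zero]
    ring

end FLTAgent.EllParam
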