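/-
`q`-expansion of `(2πi)⁻²℘(y)` for real `y`, and limits of `(2πi)⁻²℘(xτ+y)` at `i∞`.
-/
import Mathlib.Analysis.Normed.Group.Tannery
import Mathlib.Analysis.Analytic.OfScalars
import Fermat.Agent.EllParam.RowSum

set_option autoImplicit false

noncomputable section

open Complex Filter
open UpperHalfPlane hiding I
open scoped Real Topology NNReal ENNReal

namespace FLTAgent.EllParam

/-- Coefficients of the expansion of `(2πi)⁻²℘(y)`, `u = exp(2πiy)`. -/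
def nCoef (u : ℂ) (N : ℕ) : ℂ :=
  if N = 0 then 1 / 12 + Su u
  else ∑ d ∈ N.divisors, (d : ℂ) * (u ^ d + u⁻¹ ^ d - 2)

theorem nCoef_zero (u : ℂ) : nCoef u 0 = 1 / 12 + Su u := if_pos rfl

theorem nCoef_of_ne_zero (u : ℂ) {N : ℕ} (hN : N ≠ 0) :
    nCoef u N = ∑ d ∈ N.divisors, (d : ℂ) * (u ^ d + u⁻¹ ^ d - 2) := if_neg hN

theorem hasSum_pnat_mul_geometric {v : ℂ} (hv : ‖v‖ < 1) :
    HasSum (fun d : ℕ+ => (d : ℂ) * v ^ (d : ℕ)) (Su v) := by
  have h := hasSum_coe_mul_geometric_of_norm_lt_one hv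
  have hinj : Function.Injective fun d : ℕ+ => (d : ℕ) := PNat.coe_injective
  refine (hinj.hasSum_iff fun n hn => ?_).mpr h
  rcases Nat.eq_zero_or_pos n with rfl | h0
  · simp
  · exact absurd ⟨⟨n, h0⟩, rfl⟩ hn

theorem norm_le_four {u : ℂ} (hu : ‖u‖ = 1) (d : ℕ) : ‖u ^ d + u⁻¹ ^ d - 2‖ ≤ 4 := by
  refine (norm_sub_le _ _).trans ((add_le_add_left (norm_add_le _ _) _).trans ?_)
  simp [hu]
  norm_num

theorem hasSum_double {u q : ℂ} (hu : ‖u‖ = 1) (hq : ‖q‖ < 1) :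
    HasSum (fun N : ℕ => nCoef u N * q ^ N)
      (1 / 12 + Su u + ∑' m : ℕ+,
        (Su (q ^ (m : ℕ) * u) + Su (q ^ (m : ℕ) * u⁻¹) - 2 * Su (q ^ (m : ℕ)))) := by
  set F : ℕ+ × ℕ+ → ℂ := fun c =>
    (c.2 : ℂ) * (u ^ (c.2 : ℕ) + u⁻¹ ^ (c.2 : ℕ) - 2) * q ^ ((c.1 : ℕ) * c.2) with hF_def
  have hF : Summable F := by
    refine Summable.of_norm_bounded ((summable_prod_mul_pow 1 hq).norm.mul_left 4) fun c => ?_
    simp only [F, pow_one, norm_mul]
    nlinarith [mul_le_mul_of_nonneg_left (norm_le_four hu c.2)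
      (mul_nonneg (norm_nonneg (c.2 : ℂ)) (norm_nonneg (q ^ ((c.1 : ℕ) * c.2))))]
  have hrow : ∀ m : ℕ+, ∑' d : ℕ+, F (m, d) =
      Su (q ^ (m : ℕ) * u) + Su (q ^ (m : ℕ) * u⁻¹) - 2 * Su (q ^ (m : ℕ)) := by
    intro m
    have hv : ‖q ^ (m : ℕ)‖ < 1 := by
      rw [norm_pow]; exact pow_lt_one₀ (norm_nonneg _) hq m.ne_zero
    have h := ((hasSum_pnat_mul_geometric (v := q ^ (m : ℕ) * u) (by simpa [hu] using hv)).add
      (hasSum_pnat_mul_geometric (v := q ^ (m : ℕ) * u⁻¹) (by simpa [hu] using hv))).sub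
      ((hasSum_pnat_mul_geometric hv).mul_left 2)
    refine HasSum.tsum_eq (h.congr_fun fun d => ?_)
    simp only [F, mul_pow, ← pow_mul]
    ring
  have hsig := sigmaAntidiagonalEquivProd.hasSum_iff.mpr hF.hasSum
  have hN : HasSum (fun N : ℕ+ => nCoef u N * q ^ (N : ℕ)) (∑' c, F c) := by
    refine hsig.sigma fun N => ?_
    have h := hasSum_fintype (fun x : (N : ℕ).divisorsAntidiagonal =>
      (F ∘ sigmaAntidiagonalEquivProd) ⟨N, x⟩)
    refine (?_ : nCoef u N * q ^ (N : ℕ) = _) ▸ h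
    simp only [Function.comp_apply, sigmaAntidiagonalEquivProd, Equiv.coe_fn_mk,
      divisorsAntidiagonalFactors, PNat.mk_coe, F]
    rw [Finset.univ_eq_attach, (N : ℕ).divisorsAntidiagonal.sum_attach
      (fun x : ℕ × ℕ => (x.2 : ℂ) * (u ^ x.2 + u⁻¹ ^ x.2 - 2) * q ^ (x.1 * x.2)),
      nCoef_of_ne_zero u N.ne_zero, Finset.sum_mul,
      Nat.sum_divisorsAntidiagonal' fun a b => (b : ℂ) * (u ^ b + u⁻¹ ^ b - 2) * q ^ (a * b)]
    refine Finset.sum_congr rfl fun d hd => ?_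
    rw [Nat.div_mul_cancel (Nat.dvd_of_mem_divisors hd)]
  rw [hF.tsum_prod, tsum_congr hrow] at hN
  have h0 : HasSum (fun N : ℕ => if N = 0 then 0 else nCoef u N * q ^ N)
      (∑' m : ℕ+, (Su (q ^ (m : ℕ) * u) + Su (q ^ (m : ℕ) * u⁻¹) - 2 * Su (q ^ (m : ℕ)))) := by
    refine (PNat.coe_injective.hasSum_iff fun n hn => ?_).mp (hN.congr_fun fun N => by simp)
    rcases Nat.eq_zero_or_pos n with rfl | h0
    · simp
    · exact absurd ⟨⟨n, h0⟩, rfl⟩ hn
  have h1 := (hasSum_ite_eq 0 (1 / 12 + Su u)).add h0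
  refine h1.congr_fun fun N => ?_
  rcases eq_or_ne N 0 with rfl | hN0
  · simp [nCoef_zero]
  · simp [hN0]

theorem not_mem_of_real {y : ℝ} (hy : ∀ n : ℤ, (y : ℂ) ≠ n) (τ : ℍ) (m n : ℤ) :
    (y : ℂ) ≠ m * τ + n := by
  intro e
  rcases eq_or_ne m 0 with rfl | hm
  · exact hy n (by simpa using e)
  · have := congrArg Complex.im e
    simp [hm, τ.im_ne_zero] at this

theorem norm_qe_real (y : ℝ) : ‖qe y‖ = 1 := by simp [norm_qe]

theorem norm_qe_tau_lt (τ : ℍ) : ‖qe τ‖ < 1 := by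
  rw [norm_qe, Real.exp_lt_one_iff]
  have : 0 < (τ : ℂ).im := τ.im_pos
  nlinarith [Real.pi_pos, mul_pos Real.pi_pos this]

theorem hasSum_nP (τ : ℍ) {y : ℝ} (hy : ∀ n : ℤ, (y : ℂ) ≠ n) :
    HasSum (fun N : ℕ => nCoef (qe y) N * qe τ ^ N) (nP τ y) := by
  rw [nP_eq_tsum τ (not_mem_of_real hy τ)]
  exact hasSum_double (norm_qe_real y) (norm_qe_tau_lt τ)

/-- The sum of the expansion, as a function on the unit disc. -/
def nFun (u q : ℂ) : ℂ := ∑' N : ℕ, nCoef u N * q ^ N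

theorem hasFPowerSeriesOnBall_nFun {u : ℂ} (hu : ‖u‖ = 1) :
    HasFPowerSeriesOnBall (nFun u) (.ofScalars ℂ (nCoef u)) 0 1 where
  r_le := by
    refine ENNReal.le_of_forall_nnreal_lt fun r hr => ?_
    refine FormalMultilinearSeries.le_radius_of_summable _ ?_
    have hr' : ‖((r : ℝ) : ℂ)‖ < 1 := by
      simpa [abs_of_nonneg r.coe_nonneg] using (show (r : ℝ) < 1 by exact_mod_cast hr)
    refine ((hasSum_double hu hr').summable.norm).congr fun n => ?_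
    rw [FormalMultilinearSeries.ofScalars_norm, norm_mul, norm_pow, Complex.norm_real,
      Real.norm_eq_abs, abs_of_nonneg r.coe_nonneg]
  r_pos := one_pos
  hasSum {q} hq := by
    have hq' : ‖q‖ < 1 := by
      rw [← ENNReal.ofReal_one, Metric.eball_ofReal] at hq
      simpa using hq
    simp only [zero_add, FormalMultilinearSeries.ofScalars_apply_eq, smul_eq_mul]
    exact (hasSum_double hu hq').summable.hasSum

theorem nP_eq_nFun (τ : ℍ) {y : ℝ} (hy : ∀ n : ℤ, (y : ℂ) ≠ n) :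
    nP τ y = nFun (qe y) (qe τ) :=
  (hasSum_nP τ hy).tsum_eq.symm

theorem norm_Su_le {v : ℂ} {s : ℝ} (hs : s < 1) (hv : ‖v‖ ≤ s) :
    ‖Su v‖ ≤ ‖v‖ / (1 - s) ^ 2 := by
  rw [Su, norm_div, norm_pow]
  have h1 : 0 < 1 - s := by linarith
  gcongr
  have := norm_sub_norm_le 1 v
  rw [norm_one] at this
  linarith

theorem tendsto_tail {x y : ℝ} (hx0 : 0 ≤ x) (hx1 : x < 1) :
    Tendsto (fun τ : ℍ => ∑' m : ℕ+,
      (Su (qe τ ^ (m : ℕ) * qe (x * τ + y)) + Su (qe τ ^ (m : ℕ) * (qe (x * τ + y))⁻¹) -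
        2 * Su (qe τ ^ (m : ℕ)))) atImInfty (𝓝 0) := by
  set s : ℝ := Real.exp (-(2 * π * (1 - x))) with hs_def
  have hs1 : s < 1 := by
    rw [Real.exp_lt_one_iff]
    nlinarith [Real.pi_pos]
  have hs0 : 0 < s := Real.exp_pos _
  -- the three arguments, as exponentials
  have hv : ∀ (ε : ℝ) (m : ℕ) (τ : ℍ), ‖qe τ ^ m * qe (ε * (x * τ + y))‖ =
      Real.exp (-(2 * π * ((m + ε * x) * τ.im))) := by
    intro ε m τ
    rw [← qe_nat_mul, ← qe_add, norm_qe]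
    congr 1
    simp
    ring
  have hbound : ∀ (ε : ℝ), -1 ≤ ε → ∀ (m : ℕ+) (τ : ℍ), 1 ≤ τ.im →
      ‖qe τ ^ (m : ℕ) * qe (ε * (x * τ + y))‖ ≤ s ^ (m : ℕ) := by
    intro ε hε m τ hτ
    rw [hv, hs_def, ← Real.exp_nat_mul, Real.exp_le_exp]
    have hm : (1 : ℝ) ≤ (m : ℕ) := by exact_mod_cast m.2
    have h1 : (1 - x) * (m : ℕ) ≤ ((m : ℕ) + ε * x) := by nlinarith
    have h2 : 0 ≤ ((m : ℕ) + ε * x) := le_trans (by nlinarith) h1
    have h3 : (1 - x) * (m : ℕ) ≤ ((m : ℕ) + ε * x) * τ.im := by nlinarith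
    nlinarith [Real.pi_pos]
  have hto : ∀ (ε : ℝ), -1 ≤ ε → ∀ m : ℕ+,
      Tendsto (fun τ : ℍ => Su (qe τ ^ (m : ℕ) * qe (ε * (x * τ + y)))) atImInfty (𝓝 0) := by
    intro ε hε m
    have hc : ContinuousAt Su 0 := continuousAt_Su zero_ne_one
    have h0 : Su 0 = 0 := by simp [Su]
    rw [← h0]
    refine hc.tendsto.comp (tendsto_zero_iff_norm_tendsto_zero.mpr ?_)
    simp only [hv]
    refine Real.tendsto_exp_atBot.comp ?_
    have hpos : (0 : ℝ) < (m : ℕ) + ε * x := by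
      have hm : (1 : ℝ) ≤ (m : ℕ) := by exact_mod_cast m.2
      nlinarith
    refine tendsto_neg_atTop_atBot.comp ?_
    refine (tendsto_comap.const_mul_atTop (show (0 : ℝ) < 2 * π * ((m : ℕ) + ε * x) from
      mul_pos (by positivity) hpos)).congr fun τ => by ring
  have e1 : ∀ τ : ℍ, qe (x * τ + y) = qe ((1 : ℝ) * (x * τ + y)) := fun τ => by simp
  have e2 : ∀ τ : ℍ, (qe (x * τ + y))⁻¹ = qe ((-1 : ℝ) * (x * τ + y)) := fun τ => by
    rw [Complex.ofReal_neg, Complex.ofReal_one, neg_one_mul, qe_neg]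
  have e3 : ∀ (τ : ℍ) (m : ℕ), qe τ ^ m = qe τ ^ m * qe ((0 : ℝ) * (x * τ + y)) := fun τ m => by
    simp [qe_zero]
  rw [← tsum_zero (α := ℂ) (β := ℕ+)]
  refine tendsto_tsum_of_dominated_convergence
    (bound := fun m : ℕ+ => 4 * (s ^ (m : ℕ) / (1 - s) ^ 2)) ?_ (fun m => ?_) ?_
  · exact ((summable_geometric_of_lt_one hs0.le hs1).comp_injective PNat.coe_injective).div_const
      _ |>.mul_left 4
  · have h1 := hto 1 (by norm_num) m
    have h2 := hto (-1) le_rfl m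
    have h3 := hto 0 (by norm_num) m
    simp only [← e1, ← e2, ← e3] at h1 h2 h3
    simpa using (h1.add h2).sub (h3.const_mul 2)
  · filter_upwards [tendsto_comap.eventually_ge_atTop (1 : ℝ)] with τ hτ m
    have hle : ∀ ε : ℝ, -1 ≤ ε →
        ‖Su (qe τ ^ (m : ℕ) * qe (ε * (x * τ + y)))‖ ≤ s ^ (m : ℕ) / (1 - s) ^ 2 := fun ε hε =>
      (norm_Su_le hs1 ((hbound ε hε m τ hτ).trans
        (pow_le_of_le_one hs0.le hs1.le m.ne_zero))).trans
          (div_le_div_of_nonneg_right (hbound ε hε m τ hτ) (sq_nonneg _))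
    have h1 := hle 1 (by norm_num)
    have h2 := hle (-1) le_rfl
    have h3 := hle 0 (by norm_num)
    simp only [← e1, ← e2, ← e3] at h1 h2 h3
    refine (norm_sub_le _ _).trans ?_
    rw [norm_mul, RCLike.norm_ofNat]
    linarith [norm_add_le (Su (qe τ ^ (m : ℕ) * qe (x * τ + y)))
      (Su (qe τ ^ (m : ℕ) * (qe (x * τ + y))⁻¹))]

/-- The value at `i∞` of `(2πi)⁻²℘(xτ+y)`, `0 ≤ x < 1`. -/
theorem tendsto_nP {x y : ℝ} (hx0 : 0 ≤ x) (hx1 : x < 1) (hy : x = 0 → ∀ n : ℤ, (y : ℂ) ≠ n) :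
    Tendsto (fun τ : ℍ => nP τ (x * τ + y)) atImInfty
      (𝓝 (1 / 12 + if x = 0 then Su (qe y) else 0)) := by
  have hne : ∀ τ : ℍ, ∀ m n : ℤ, (x : ℂ) * τ + y ≠ m * τ + n := by
    intro τ m n e
    have hi : x * τ.im = m * τ.im := by simpa using congrArg Complex.im e
    have hxm : x = m := mul_right_cancel₀ τ.im_ne_zero hi
    have hm0 : m = 0 := by
      have h1 : (m : ℝ) < 1 := hxm ▸ hx1
      have h2 : (0 : ℝ) ≤ m := hxm ▸ hx0
      have h1' : m < 1 := by exact_mod_cast h1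
      have h2' : 0 ≤ m := by exact_mod_cast h2
      omega
    subst hm0
    refine hy (by simpa using hxm) n ?_
    have : (x : ℂ) = 0 := by simpa using hxm
    simpa [this] using e
  simp only [fun τ => nP_eq_tsum τ (hne τ)]
  rw [← add_zero (1 / 12 + _ : ℂ)]
  refine (tendsto_const_nhds.add ?_).add (tendsto_tail hx0 hx1)
  split_ifs with hx
  · subst hx; simp
  · have hpos : 0 < x := lt_of_le_of_ne hx0 (Ne.symm hx)
    rw [← show Su 0 = 0 by simp [Su]]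
    refine (continuousAt_Su zero_ne_one).tendsto.comp (tendsto_zero_iff_norm_tendsto_zero.mpr ?_)
    simp only [norm_qe]
    refine Real.tendsto_exp_atBot.comp (tendsto_neg_atTop_atBot.comp ?_)
    exact (tendsto_comap.const_mul_atTop (show 0 < 2 * π * x by positivity)).congr fun τ => by
      simp [mul_assoc]

end FLTAgent.EllParam
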