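/-
The parametrisation of a Weierstrass curve over ℂ by a lattice with the same invariants.
-/
import Mathlib.AlgebraicGeometry.EllipticCurve.Affine.Point
import Fermat.Agent.EllParam.Addition

set_option autoImplicit false

noncomputable section

open Complex WeierstrassCurve
open WeierstrassCurve.Affine (Point)

namespace FLTAgent.EllParam

/-- The lattice has the invariants of the curve, and the curve is nonsingular. -/
structure Uniformises (L : PeriodPair) (W : Affine ℂ) : Prop where
  delta_ne : WeierstrassCurve.Δ W ≠ 0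
  g₂_eq : 12 * L.g₂ = WeierstrassCurve.c₄ W
  g₃_eq : 216 * L.g₃ = WeierstrassCurve.c₆ W

variable {L : PeriodPair} {W : Affine ℂ}

/-- The abscissa. -/
def px (L : PeriodPair) (W : Affine ℂ) (z : ℂ) : ℂ := L.weierstrassP z - WeierstrassCurve.b₂ W / 12

/-- The ordinate. -/
def py (L : PeriodPair) (W : Affine ℂ) (z : ℂ) : ℂ :=
  (L.derivWeierstrassP z - W.a₁ * px L W z - W.a₃) / 2

local notation "Λ" => (L.lattice : Set ℂ)

theorem Uniformises.nonsingular (h : Uniformises L W) {z : ℂ} (hz : z ∉ L.lattice) :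
    W.Nonsingular (px L W z) (py L W z) := by
  refine (W.equation_iff_nonsingular_of_Δ_ne_zero h.delta_ne).mp ?_
  rw [Affine.equation_iff]
  have e := L.derivWeierstrassP_sq z hz
  have e2 := h.g₂_eq
  have e3 := h.g₃_eq
  simp only [WeierstrassCurve.c₄, WeierstrassCurve.c₆, WeierstrassCurve.b₂, WeierstrassCurve.b₄,
    WeierstrassCurve.b₆] at e2 e3
  simp only [px, py, WeierstrassCurve.b₂]
  generalize L.weierstrassP z = X at *
  generalize L.derivWeierstrassP z = Y at *
  linear_combination (1 / 4 : ℂ) * e - X / 48 * e2 - (1 / 864 : ℂ) * e3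

open Classical in
/-- The parametrisation as a function. -/
def pointFun (h : Uniformises L W) (z : ℂ) : W.Point :=
  if hz : z ∈ L.lattice then 0 else Point.some _ _ (h.nonsingular hz)

variable (h : Uniformises L W)

theorem pointFun_of_mem {z : ℂ} (hz : z ∈ L.lattice) : pointFun h z = 0 := dif_pos hz

theorem pointFun_of_notMem {z : ℂ} (hz : z ∉ L.lattice) :
    pointFun h z = Point.some _ _ (h.nonsingular hz) := dif_neg hz

theorem pointFun_eq_zero_iff {z : ℂ} : pointFun h z = 0 ↔ z ∈ L.lattice := by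
  refine ⟨fun e => ?_, pointFun_of_mem h⟩
  by_contra hz
  rw [pointFun_of_notMem h hz] at e
  exact Point.some_ne_zero _ e

theorem add_mem_lattice_iff {l : ℂ} (hl : l ∈ L.lattice) {z : ℂ} :
    z + l ∈ L.lattice ↔ z ∈ L.lattice := by
  refine ⟨fun e => ?_, fun e => add_mem e hl⟩
  simpa using sub_mem e hl

theorem pointFun_add_mem {l : ℂ} (hl : l ∈ L.lattice) (z : ℂ) :
    pointFun h (z + l) = pointFun h z := by
  by_cases hz : z ∈ L.lattice
  · rw [pointFun_of_mem h hz, pointFun_of_mem h (add_mem hz hl)]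
  · rw [pointFun_of_notMem h hz, pointFun_of_notMem h fun e => hz ((add_mem_lattice_iff hl).mp e)]
    simp only [Point.some.injEq, px, py]
    rw [show z + l = z + ((⟨l, hl⟩ : L.lattice) : ℂ) from rfl, L.weierstrassP_add_coe,
      L.derivWeierstrassP_add_coe]
    exact ⟨rfl, rfl⟩

theorem pointFun_neg (z : ℂ) : pointFun h (-z) = -pointFun h z := by
  by_cases hz : z ∈ L.lattice
  · rw [pointFun_of_mem h hz, pointFun_of_mem h (neg_mem hz), neg_zero]
  · rw [pointFun_of_notMem h hz, pointFun_of_notMem h fun e => hz (by simpa using neg_mem e),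
      Point.neg_some]
    simp only [Point.some.injEq, px, py, Affine.negY, L.weierstrassP_neg, L.derivWeierstrassP_neg]
    exact ⟨trivial, by ring⟩

theorem pointFun_add_generic {a b : ℂ} (ha : a ∉ L.lattice) (hb : b ∉ L.lattice)
    (hab : a + b ∉ L.lattice) (hne : L.weierstrassP a ≠ L.weierstrassP b) :
    pointFun h (a + b) = pointFun h a + pointFun h b := by
  classical
  have hx : px L W a ≠ px L W b := fun e => hne (by simpa [px] using e)
  rw [pointFun_of_notMem h ha, pointFun_of_notMem h hb, pointFun_of_notMem h hab,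
    Point.add_of_X_ne hx]
  have e1 := wp_add L ha hb hab hne
  have e2 := wpd_add L ha hb hab hne
  have hd : L.weierstrassP a - L.weierstrassP b ≠ 0 := sub_ne_zero.mpr hne
  have hs : W.slope (px L W a) (px L W b) (py L W a) (py L W b) =
      ((L.derivWeierstrassP a - L.derivWeierstrassP b) /
        (L.weierstrassP a - L.weierstrassP b) - W.a₁) / 2 := by
    rw [Affine.slope_of_X_ne hx]
    simp only [px, py, sub_sub_sub_cancel_right]
    field_simp
    ring
  have hX : W.addX (px L W a) (px L W b) (W.slope (px L W a) (px L W b) (py L W a) (py L W b)) =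
      px L W (a + b) := by
    rw [hs]
    simp only [px, ← e1, chordX, Affine.addX, WeierstrassCurve.b₂]
    ring
  have hY : W.addY (px L W a) (px L W b) (py L W a)
      (W.slope (px L W a) (px L W b) (py L W a) (py L W b)) = py L W (a + b) := by
    simp only [Affine.addY, Affine.negAddY, Affine.negY, hX]
    rw [hs]
    simp only [py, px, e2]
    ring
  simp only [Point.some.injEq]
  exact ⟨hX.symm, hY.symm⟩

theorem countable_eq_const {v : ℂ} : {z | z ∈ L.lattice ∨ L.weierstrassP z = v}.Countable := by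
  have hne : ∃ z ∈ Λᶜ, L.weierstrassP z - v ≠ 0 := by
    obtain ⟨z, hz, hzB⟩ := eventually_off (countable_lattice L) 0 _
      ((tendsto_norm_wp_zero L).eventually_ge_atTop (‖v‖ + 1))
    refine ⟨z, hzB, fun e => ?_⟩
    simp only [Set.mem_ofPred_eq] at hz
    rw [sub_eq_zero.mp e] at hz
    linarith
  refine ((countable_lattice L).union (countable_zeros
    (isConnected_compl (countable_lattice L)).isPreconnected
    (L.analyticOnNhd_weierstrassP.sub analyticOnNhd_const) hne)).mono ?_
  intro z hz
  by_cases hz' : z ∈ L.lattice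
  · exact Or.inl hz'
  · exact Or.inr ⟨hz', sub_eq_zero.mpr (hz.resolve_left hz')⟩

theorem pointFun_add (a b : ℂ) : pointFun h (a + b) = pointFun h a + pointFun h b := by
  by_cases ha : a ∈ L.lattice
  · rw [pointFun_of_mem h ha, zero_add, add_comm, pointFun_add_mem h ha]
  by_cases hb : b ∈ L.lattice
  · rw [pointFun_of_mem h hb, add_zero, pointFun_add_mem h hb]
  by_cases hab : a + b ∈ L.lattice
  · rw [pointFun_of_mem h hab]
    have : b = -a + (a + b) := by ring
    rw [this, pointFun_add_mem h hab, pointFun_neg, add_neg_cancel]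
  -- avoid a countable set
  have hB : ({c | c ∈ L.lattice ∨ b - c ∈ L.lattice ∨ L.weierstrassP c = L.weierstrassP (b - c)} ∪
      {c | c ∈ L.lattice ∨ L.weierstrassP c = L.weierstrassP a} ∪
      (fun c => a + c) ⁻¹' {t | t ∈ L.lattice ∨ a + b - t ∈ L.lattice ∨
        L.weierstrassP t = L.weierstrassP (a + b - t)} : Set ℂ).Countable :=
    ((countable_eq_reflect L hb).union countable_eq_const).union
      ((countable_eq_reflect L hab).preimage (add_right_injective a))
  obtain ⟨c, hc⟩ := (hB.dense_compl ℝ).nonempty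
  simp only [Set.mem_compl_iff, Set.mem_union, Set.mem_preimage, Set.mem_ofPred_eq, not_or] at hc
  obtain ⟨⟨⟨hc1, hc2, hc3⟩, -, hc5⟩, hc6, hc7, hc8⟩ := hc
  have hsub : a + b - (a + c) = b - c := by ring
  rw [hsub] at hc7 hc8
  have h1 := pointFun_add_generic h hc1 hc2 (by rwa [add_sub_cancel]) hc3
  rw [add_sub_cancel] at h1
  have h2 := pointFun_add_generic h ha hc1 hc6 (Ne.symm hc5)
  have h3 := pointFun_add_generic h hc6 hc7 (by rwa [show a + c + (b - c) = a + b by ring]) hc8
  rw [show a + c + (b - c) = a + b by ring] at h3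
  classical
  rw [h3, h2, h1, add_assoc]

open Classical in
/-- The parametrisation. -/
def pointHom : ℂ →+ W.Point :=
  AddMonoidHom.mk' (pointFun h) (pointFun_add h)

open Classical in
theorem pointHom_eq_zero_iff {z : ℂ} : pointHom h z = 0 ↔ z ∈ L.lattice :=
  pointFun_eq_zero_iff h

open Classical in
theorem pointHom_of_notMem {z : ℂ} (hz : z ∉ L.lattice) :
    pointHom h z = Point.some _ _ (h.nonsingular hz) :=
  pointFun_of_notMem h hz

open Classical in
/-- Torsion points are images of lattice fractions. -/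
theorem exists_pointHom_eq {n : ℕ} (hn : n ≠ 0) [Finite {P : W.Point // n • P = 0}]
    (hcard : Nat.card {P : W.Point // n • P = 0} ≤ n ^ 2) {P : W.Point} (hP : n • P = 0) :
    ∃ a b : ℕ, a < n ∧ b < n ∧ pointFun h ((a * L.ω₁ + b * L.ω₂) / n) = P := by
  have hn' : (n : ℂ) ≠ 0 := Nat.cast_ne_zero.mpr hn
  have hnsmul : ∀ (m : ℕ) (z : ℂ), m • pointFun h z = pointFun h (m * z) := by
    intro m z
    induction m with
    | zero => simp [pointFun_of_mem h (zero_mem L.lattice)]
    | succ m ih =>
      rw [succ_nsmul, ih, ← pointFun_add h]; congr 1; push_cast; ring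
  have hlat : ∀ a b : ℤ, (a : ℂ) * L.ω₁ + (b : ℂ) * L.ω₂ ∈ L.lattice := fun a b =>
    PeriodPair.mem_lattice.mpr ⟨a, b, rfl⟩
  let e : Fin n × Fin n → {P : W.Point // n • P = 0} := fun ab =>
    ⟨pointFun h ((ab.1 * L.ω₁ + ab.2 * L.ω₂) / n), by
      rw [hnsmul, mul_div_cancel₀ _ hn']
      exact pointFun_of_mem h (by simpa using hlat ab.1 ab.2)⟩
  have hinj : Function.Injective e := by
    rintro ⟨a, b⟩ ⟨a', b'⟩ he
    have he' := congrArg Subtype.val he
    simp only [e] at he'
    have hz : pointFun h ((a * L.ω₁ + b * L.ω₂) / n - (a' * L.ω₁ + b' * L.ω₂) / n) = 0 := by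
      rw [sub_eq_add_neg, pointFun_add h, pointFun_neg h, he', add_neg_cancel]
    rw [pointFun_eq_zero_iff, PeriodPair.mem_lattice] at hz
    obtain ⟨x, y, hxy⟩ := hz
    have : ((x : ℝ) * n - ((a : ℕ) - (a' : ℕ) : ℝ)) • L.ω₁ +
        ((y : ℝ) * n - ((b : ℕ) - (b' : ℕ) : ℝ)) • L.ω₂ = 0 := by
      simp only [Complex.real_smul]
      push_cast
      field_simp at hxy
      linear_combination hxy
    obtain ⟨hx, hy⟩ := (LinearIndependent.pair_iff.mp L.indep) _ _ this
    have key : ∀ (u v : Fin n) (t : ℤ), (t : ℝ) * n - ((u : ℕ) - (v : ℕ) : ℝ) = 0 → u = v := by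
      intro u v t ht
      have hz : t * (n : ℤ) = (u : ℤ) - (v : ℤ) := by
        have : ((t * n : ℤ) : ℝ) = (((u : ℤ) - (v : ℤ) : ℤ) : ℝ) := by push_cast; linarith
        exact_mod_cast this
      have hu := u.isLt
      have hv := v.isLt
      have : t = 0 := by nlinarith
      subst this
      exact Fin.ext (by omega)
    rw [key a a' x hx, key b b' y hy]
  have hbij := hinj.bijective_of_nat_card_le (by simpa [← sq] using hcard)
  obtain ⟨⟨a, b⟩, hab⟩ := hbij.2 ⟨P, hP⟩
  exact ⟨a, b, a.isLt, b.isLt, congrArg Subtype.val hab⟩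

end FLTAgent.EllParam
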