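/-
Every complex elliptic curve with a point of order `p` is `(ℂ/w(τℤ+ℤ), w/p)`.
-/
import Mathlib.NumberTheory.ModularForms.LevelOne.GradedRing
import Mathlib.Analysis.Complex.Polynomial.Basic
import Fermat.Agent.Genus.Points
import Fermat.Agent.Torsion.QBar
import Fermat.Agent.EllParam.Points
import Fermat.Agent.EllParam.Lattice

set_option autoImplicit false

noncomputable section

open Complex UpperHalfPlane WeierstrassCurve
open WeierstrassCurve.Affine (Point)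
open scoped MatrixGroups Real

namespace FLTAgent.EllParam

open FLTAgent.ModPoly (jFun jFun_smul)

theorem c₄_c₆_relation {R : Type*} [CommRing R] (W : WeierstrassCurve R) :
    1728 * W.Δ = W.c₄ ^ 3 - W.c₆ ^ 2 :=
  W.c_relation

/-- A complex Weierstrass curve with `c₄ c₆ ≠ 0` is uniformised by some `w(τℤ+ℤ)`. -/
theorem exists_uniformises (W : Affine ℂ) (hΔ : WeierstrassCurve.Δ W ≠ 0)
    (h4 : WeierstrassCurve.c₄ W ≠ 0) (h6 : WeierstrassCurve.c₆ W ≠ 0) :
    ∃ (τ : ℍ) (w : ℂ) (hw : w ≠ 0), Uniformises (tauPair τ w hw) W ∧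
      jFun τ = WeierstrassCurve.c₄ W ^ 3 / WeierstrassCurve.Δ W := by
  obtain ⟨τ, hτ⟩ := Genus.exists_jFun_eq (WeierstrassCurve.c₄ W ^ 3 / WeierstrassCurve.Δ W)
  have hrel := c₄_c₆_relation W
  set A := WeierstrassCurve.c₄ W
  set B := WeierstrassCurve.c₆ W
  set D := WeierstrassCurve.Δ W
  set e4 := ModularForm.E₄ τ
  set e6 := ModularForm.E₆ τ
  have hd := ModularForm.discriminant_eq_E₄_cube_sub_E₆_sq τ
  have hd0 := ModularForm.discriminant_ne_zero τ
  have hj : e4 ^ 3 * D = A ^ 3 * ModularForm.discriminant τ := by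
    rw [FLTAgent.ModPoly.jFun] at hτ
    field_simp at hτ
    linear_combination hτ
  have hkey : e4 ^ 3 * B ^ 2 = A ^ 3 * e6 ^ 2 := by
    rw [hd] at hj
    linear_combination (-1728 : ℂ) * hj + e4 ^ 3 * hrel
  have he4 : e4 ≠ 0 := by
    intro e
    rw [e] at hj
    simp only [zero_pow three_ne_zero, zero_mul] at hj
    exact mul_ne_zero (pow_ne_zero 3 h4) hd0 hj.symm
  have he6 : e6 ≠ 0 := by
    intro e
    rw [e] at hkey
    have : e4 ^ 3 * B ^ 2 = 0 := by rw [hkey]; ring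
    exact mul_ne_zero (pow_ne_zero 3 he4) (pow_ne_zero 2 h6) this
  obtain ⟨w, hw2⟩ := IsAlgClosed.exists_pow_nat_eq (4 * (π : ℂ) ^ 2 * A * e6 / (e4 * B))
    (show 0 < 2 by norm_num)
  have hπ : (π : ℂ) ≠ 0 := by exact_mod_cast Real.pi_ne_zero
  have hw : w ≠ 0 := by
    rintro rfl
    rw [zero_pow two_ne_zero] at hw2
    exact div_ne_zero (by simp [h4, he6, hπ]) (mul_ne_zero he4 h6) hw2.symm
  have hw4 : w ^ 4 = 16 * (π : ℂ) ^ 4 * e4 / A := by
    rw [show w ^ 4 = (w ^ 2) ^ 2 by ring, hw2]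
    field_simp
    linear_combination (-16 : ℂ) * hkey
  have hw6 : w ^ 6 = 64 * (π : ℂ) ^ 6 * e6 / B := by
    rw [show w ^ 6 = w ^ 4 * w ^ 2 by ring, hw4, hw2]
    field_simp
    ring
  refine ⟨τ, w, hw, ⟨hΔ, ?_, ?_⟩, hτ⟩
  · rw [tauPair_g₂, stdPair_g₂, hw4]
    field_simp
    ring
  · rw [tauPair_g₃, stdPair_g₃, hw6]
    field_simp
    ring

/-- A bottom row mod `p` lifts to `SL(2, ℤ)`. -/
theorem exists_sl_bottom_row {p : ℕ} (hp : p.Prime) (a b : ℤ)
    (h : ¬((p : ℤ) ∣ a ∧ (p : ℤ) ∣ b)) :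
    ∃ γ : SL(2, ℤ), (p : ℤ) ∣ γ 1 0 - a ∧ (p : ℤ) ∣ γ 1 1 - b := by
  have hpi : Prime (p : ℤ) := Nat.prime_iff_prime_int.mp hp
  by_cases ha : (p : ℤ) ∣ a
  · obtain ⟨x, y, hxy⟩ := (hpi.coprime_iff_not_dvd.mpr fun hb => h ⟨ha, hb⟩).symm
    refine ⟨⟨!![x, -y; (p : ℤ), b], by rw [Matrix.det_fin_two_of]; linear_combination hxy⟩,
      ?_, ?_⟩
    · simpa using dvd_sub (dvd_refl (p : ℤ)) ha
    · simp
  · obtain ⟨x, y, hxy⟩ := (hpi.coprime_iff_not_dvd.mpr ha).symm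
    refine ⟨⟨!![1, b * x - x; a, b * x * a + y * p],
      by rw [Matrix.det_fin_two_of]; linear_combination hxy⟩, ?_, ?_⟩
    · simp
    · simp only [Matrix.of_apply, Matrix.cons_val',
        Matrix.cons_val_one, Matrix.cons_val_fin_one]
      exact ⟨y - b * y, by linear_combination b * hxy⟩

theorem pointFun_congr {L L' : PeriodPair} {W : Affine ℂ}
    (e : ∀ l, l ∈ L.lattice ↔ l ∈ L'.lattice) (h : Uniformises L W) (h' : Uniformises L' W)
    (z : ℂ) : pointFun h' z = pointFun h z := by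
  have e' : ∀ l, l ∈ L.lattice ↔ (1 : ℂ) * l ∈ L'.lattice := by simpa using e
  by_cases hz : z ∈ L.lattice
  · rw [pointFun_of_mem h hz, pointFun_of_mem h' ((e z).mp hz)]
  · rw [pointFun_of_notMem h hz, pointFun_of_notMem h' fun h'' => hz ((e z).mpr h'')]
    simp only [Point.some.injEq, px, py]
    have h1 := wp_scale one_ne_zero e' z
    have h2 := wpd_scale one_ne_zero e' z
    simp only [one_mul, one_pow, inv_one] at h1 h2
    exact ⟨by rw [h1], by rw [h1, h2]⟩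

theorem Uniformises.congr {L L' : PeriodPair} {W : Affine ℂ}
    (e : ∀ l, l ∈ L.lattice ↔ l ∈ L'.lattice) (h : Uniformises L W) : Uniformises L' W := by
  have e' : ∀ l, l ∈ L.lattice ↔ (1 : ℂ) * l ∈ L'.lattice := by simpa using e
  have hG := G_scale one_ne_zero e'
  refine ⟨h.delta_ne, ?_, ?_⟩
  · have := h.g₂_eq
    simpa [PeriodPair.g₂, hG] using this
  · have := h.g₃_eq
    simpa [PeriodPair.g₃, hG] using this

/-- A complex curve with a point `Q` of exact prime order `p` is `(ℂ/w(τℤ+ℤ), w/p)`. -/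
theorem exists_uniformises_point (W : Affine ℂ) [W.IsElliptic]
    (h4 : WeierstrassCurve.c₄ W ≠ 0) (h6 : WeierstrassCurve.c₆ W ≠ 0) {p : ℕ} (hp : p.Prime)
    [DecidableEq ℂ] {Q : W.Point} (hQ : p • Q = 0) (hQ0 : Q ≠ 0) :
    ∃ (τ : ℍ) (w : ℂ) (hw : w ≠ 0) (h : Uniformises (tauPair τ w hw) W),
      pointFun h (w / p) = Q ∧ jFun τ = WeierstrassCurve.c₄ W ^ 3 / WeierstrassCurve.Δ W := by
  obtain ⟨τ, w, hw, h, hj⟩ := exists_uniformises W
    (WeierstrassCurve.IsElliptic.isUnit.ne_zero) h4 h6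
  have hpC : (p : ℂ) ≠ 0 := Nat.cast_ne_zero.mpr hp.ne_zero
  let eqv : {P : W.Point // p • P = 0} ≃ Submodule.torsionBy ℤ W.Point (p : ℤ) :=
    Equiv.subtypeEquivRight (p := fun P => p • P = 0)
      (q := fun P => P ∈ Submodule.torsionBy ℤ W.Point (p : ℤ)) fun P => by
      rw [Submodule.mem_torsionBy_iff, natCast_zsmul]
  have : Finite {P : W.Point // p • P = 0} :=
    have := Torsion.finite_torsionBy (W := W) hp.ne_zero
    Finite.of_equiv _ eqv.symm
  have hcard : Nat.card {P : W.Point // p • P = 0} ≤ p ^ 2 :=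
    (Nat.card_congr eqv).trans_le (Torsion.natCard_torsionBy_le W hpC)
  have key : ∀ [D : DecidableEq ℂ] {P : W.Point} [Finite {P : W.Point // p • P = 0}],
      p • P = 0 → Nat.card {P : W.Point // p • P = 0} ≤ p ^ 2 → ∃ a b : ℕ, a < p ∧ b < p ∧
      pointFun h ((a * (w * τ) + b * w) / p) = P := by
    intro D P _ hP hc
    obtain rfl : D = Classical.decEq ℂ := Subsingleton.elim _ _
    exact exists_pointHom_eq h hp.ne_zero hc hP
  obtain ⟨a, b, ha, hb, hab⟩ := key hQ hcard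
  have hab0 : ¬((p : ℤ) ∣ (a : ℤ) ∧ (p : ℤ) ∣ (b : ℤ)) := by
    rintro ⟨h1, h2⟩
    have ha0 : a = 0 := Nat.eq_zero_of_dvd_of_lt (Int.natCast_dvd_natCast.mp h1) ha
    have hb0 : b = 0 := Nat.eq_zero_of_dvd_of_lt (Int.natCast_dvd_natCast.mp h2) hb
    subst ha0 hb0
    refine hQ0 (hab.symm.trans (pointFun_of_mem h ?_))
    simp
  obtain ⟨γ, ⟨s, hs⟩, ⟨t, ht⟩⟩ := exists_sl_bottom_row hp a b hab0
  set d : ℂ := (γ 1 0 : ℂ) * τ + γ 1 1 with hd_def
  have hd : d ≠ 0 := by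
    have := UpperHalfPlane.denom_ne_zero (γ : GL (Fin 2) ℝ) τ
    simpa [hd_def, ModularGroup.denom_apply] using this
  have hw' : w * d ≠ 0 := mul_ne_zero hw hd
  have hlat : ∀ l, l ∈ (tauPair τ w hw).lattice ↔ l ∈ (tauPair (γ • τ) (w * d) hw').lattice := by
    intro l
    obtain ⟨l, rfl⟩ : ∃ l', w * d * l' = l := ⟨(w * d)⁻¹ * l, mul_inv_cancel_left₀ hw' l⟩
    rw [← stdPair_scale _ hw', mul_assoc, ← stdPair_scale _ hw, stdPair_smul]
  refine ⟨γ • τ, w * d, hw', h.congr hlat, ?_, by rw [jFun_smul, hj]⟩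
  rw [pointFun_congr hlat h, ← hab]
  have hmem : w * d / p - (a * (w * τ) + b * w) / p ∈ (tauPair τ w hw).lattice := by
    refine (mem_tauPair hw).mpr ⟨s, t, ?_⟩
    have hsC : (γ 1 0 : ℂ) - a = p * s := by exact_mod_cast congrArg (Int.cast : ℤ → ℂ) hs
    have htC : (γ 1 1 : ℂ) - b = p * t := by exact_mod_cast congrArg (Int.cast : ℤ → ℂ) ht
    rw [hd_def, ← sub_div, eq_div_iff hpC]
    linear_combination -(w * τ) * hsC - w * htC
  conv_lhs => rw [show w * d / p =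
    (a * (w * τ) + b * w) / p + (w * d / p - (a * (w * τ) + b * w) / p) by ring]
  exact pointFun_add_mem h hmem _

end FLTAgent.EllParam
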